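import Mathlib.Analysis.SpecificLimits.Basic
import Mathlib.Topology.MetricSpace.Contracting

/-!
# The attractor of finitely many contractions

Hutchinson's theorem through the coding map of the digit sequences.
-/

set_option autoImplicit false

noncomputable section

open Finset Filter Topology

namespace FA.SelfSimilar

variable {X : Type*} {m : ℕ}

/-- The composition `f (ω 0) ∘ ⋯ ∘ f (ω (n - 1))`. -/
def wordMap (f : Fin m → X → X) : (ℕ → Fin m) → ℕ → X → X
  | _, 0 => id
  | ω, n + 1 => f (ω 0) ∘ wordMap f (fun i => ω (i + 1)) n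

theorem wordMap_add (f : Fin m → X → X) (ω : ℕ → Fin m) (i : ℕ) :
    ∀ j, wordMap f ω (j + i) = wordMap f ω j ∘ wordMap f (fun l => ω (l + j)) i := by
  intro j
  induction j generalizing ω with
  | zero => simp [wordMap]
  | succ j ih =>
    rw [show j + 1 + i = j + i + 1 by ring, wordMap, wordMap, ih, Function.comp_assoc]
    simp only [add_assoc]

theorem wordMap_succ' (f : Fin m → X → X) (ω : ℕ → Fin m) (n : ℕ) :
    wordMap f ω (n + 1) = wordMap f ω n ∘ f (ω n) := by
  rw [wordMap_add f ω 1 n]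
  simp [wordMap]

theorem wordMap_congr (f : Fin m → X → X) {ω η : ℕ → Fin m} {n : ℕ}
    (h : ∀ i < n, ω i = η i) : wordMap f ω n = wordMap f η n := by
  induction n generalizing ω η with
  | zero => rfl
  | succ n ih =>
    rw [wordMap, wordMap, h 0 n.succ_pos, ih fun i hi => h (i + 1) (by omega)]

theorem mapsTo_wordMap (f : Fin m → X → X) {A : Set X} (hA : ∀ i, f i '' A ⊆ A) :
    ∀ (n : ℕ) (ω : ℕ → Fin m), ∀ x ∈ A, wordMap f ω n x ∈ A
  | 0, _, _, hx => hx
  | n + 1, ω, x, hx =>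
    hA (ω 0) ⟨_, mapsTo_wordMap f hA n (fun i => ω (i + 1)) x hx, rfl⟩

variable [PseudoMetricSpace X]

/-- The point with the address `ω`. -/
def code [Nonempty X] (f : Fin m → X → X) (ω : ℕ → Fin m) : X :=
  limUnder atTop fun n => wordMap f ω n (Classical.arbitrary X)

theorem dist_wordMap_le {f : Fin m → X → X} {r : Fin m → ℝ} (hr : ∀ i, 0 ≤ r i)
    (hf : ∀ i x y, dist (f i x) (f i y) ≤ r i * dist x y) (ω : ℕ → Fin m) :
    ∀ n x y, dist (wordMap f ω n x) (wordMap f ω n y) ≤
      (∏ i ∈ range n, r (ω i)) * dist x y := by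
  intro n
  induction n generalizing ω with
  | zero => intro x y; simp [wordMap]
  | succ n ih =>
    intro x y
    rw [prod_range_succ', mul_comm _ (r (ω 0)), mul_assoc]
    exact (hf _ _ _).trans (mul_le_mul_of_nonneg_left (ih (fun i => ω (i + 1)) x y) (hr _))

/-- The contraction ratios have a common bound below one. -/
theorem exists_ratio_bound [NeZero m] {r : Fin m → ℝ} (hr : ∀ i, 0 ≤ r i) (hr1 : ∀ i, r i < 1) :
    ∃ R, 0 ≤ R ∧ R < 1 ∧ (∀ i, r i ≤ R) ∧
      ∀ (ω : ℕ → Fin m) n, ∏ i ∈ range n, r (ω i) ≤ R ^ n := by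
  obtain ⟨k, -, hk⟩ := exists_max_image (univ : Finset (Fin m)) r univ_nonempty
  refine ⟨r k, hr k, hr1 k, fun i => hk i (mem_univ i), fun ω n => ?_⟩
  exact (prod_le_prod (fun i _ => hr _) fun i _ => hk (ω i) (mem_univ _)).trans_eq
    (by rw [prod_const, card_range])

theorem tendsto_ratio [NeZero m] {r : Fin m → ℝ} (hr : ∀ i, 0 ≤ r i) (hr1 : ∀ i, r i < 1)
    (ω : ℕ → Fin m) : Tendsto (fun n => ∏ i ∈ range n, r (ω i)) atTop (𝓝 0) := by
  obtain ⟨R, hR0, hR1, -, hR⟩ := exists_ratio_bound hr hr1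
  exact squeeze_zero (fun n => prod_nonneg fun i _ => hr _) (hR ω)
    (tendsto_pow_atTop_nhds_zero_of_lt_one hR0 hR1)

theorem tendsto_code [Nonempty X] [CompleteSpace X] [NeZero m] {f : Fin m → X → X}
    {r : Fin m → ℝ} (hr : ∀ i, 0 ≤ r i) (hr1 : ∀ i, r i < 1)
    (hf : ∀ i x y, dist (f i x) (f i y) ≤ r i * dist x y) (ω : ℕ → Fin m) :
    Tendsto (fun n => wordMap f ω n (Classical.arbitrary X)) atTop (𝓝 (code f ω)) := by
  obtain ⟨R, hR0, hR1, -, hR⟩ := exists_ratio_bound hr hr1
  set z := Classical.arbitrary X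
  obtain ⟨k, -, hk⟩ := exists_max_image (univ : Finset (Fin m)) (fun i => dist z (f i z))
    univ_nonempty
  refine (cauchySeq_of_le_geometric R (dist z (f k z)) hR1 fun n => ?_).tendsto_limUnder
  rw [wordMap_succ', mul_comm]
  exact (dist_wordMap_le hr hf ω n z (f (ω n) z)).trans
    (mul_le_mul (hR ω n) (hk _ (mem_univ _)) dist_nonneg (pow_nonneg hR0 n))

end FA.SelfSimilar

namespace FA.SelfSimilar

variable {X : Type*} [MetricSpace X] [CompleteSpace X] [Nonempty X] {m : ℕ} [NeZero m]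
  {f : Fin m → X → X} {r : Fin m → ℝ}

theorem code_eq (hr : ∀ i, 0 ≤ r i) (hr1 : ∀ i, r i < 1)
    (hf : ∀ i x y, dist (f i x) (f i y) ≤ r i * dist x y) (ω : ℕ → Fin m) :
    code f ω = f (ω 0) (code f fun i => ω (i + 1)) := by
  have hc : Continuous (f (ω 0)) :=
    (LipschitzWith.of_dist_le_mul (K := (r (ω 0)).toNNReal) fun x y => by
      rw [Real.coe_toNNReal _ (hr _)]
      exact hf _ x y).continuous
  exact tendsto_nhds_unique ((tendsto_code hr hr1 hf ω).comp (tendsto_add_atTop_nat 1))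
    ((hc.tendsto _).comp (tendsto_code hr hr1 hf fun i => ω (i + 1)))

theorem code_eq_wordMap (hr : ∀ i, 0 ≤ r i) (hr1 : ∀ i, r i < 1)
    (hf : ∀ i x y, dist (f i x) (f i y) ≤ r i * dist x y) :
    ∀ (n : ℕ) (ω : ℕ → Fin m), code f ω = wordMap f ω n (code f fun i => ω (i + n))
  | 0, ω => rfl
  | n + 1, ω => by
    rw [code_eq hr hr1 hf ω, code_eq_wordMap hr hr1 hf n fun i => ω (i + 1), wordMap]
    simp only [Function.comp_apply, add_assoc]

theorem isBounded_range_code (hr : ∀ i, 0 ≤ r i) (hr1 : ∀ i, r i < 1)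
    (hf : ∀ i x y, dist (f i x) (f i y) ≤ r i * dist x y) (z : X) :
    ∃ D, 0 ≤ D ∧ ∀ ω : ℕ → Fin m, dist z (code f ω) ≤ D := by
  obtain ⟨R, hR0, hR1, hRi, -⟩ := exists_ratio_bound hr hr1
  obtain ⟨k, -, hk⟩ := exists_max_image (univ : Finset (Fin m)) (fun i => dist z (f i z))
    univ_nonempty
  set C := dist z (f k z)
  set D := C / (1 - R)
  have hD : C + R * D = D := by
    simp only [D]
    field_simp [(sub_pos.2 hR1).ne']
    ring
  have hD0 : 0 ≤ D := div_nonneg dist_nonneg (sub_pos.2 hR1).le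
  refine ⟨D, hD0, fun ω => ?_⟩
  set z' := Classical.arbitrary X
  have hiter : ∀ (n : ℕ) (ω : ℕ → Fin m), dist z (wordMap f ω n z) ≤ D := by
    intro n
    induction n with
    | zero => intro ω; simpa [wordMap] using hD0
    | succ n ih =>
      intro ω
      rw [wordMap, Function.comp_apply]
      refine (dist_triangle _ (f (ω 0) z) _).trans (le_trans ?_ hD.le)
      exact add_le_add (hk _ (mem_univ _)) ((hf _ _ _).trans
        (mul_le_mul (hRi _) (ih _) dist_nonneg hR0))
  have hlim : Tendsto (fun n => wordMap f ω n z) atTop (𝓝 (code f ω)) :=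
    (tendsto_code hr hr1 hf ω).congr_dist (squeeze_zero (fun _ => dist_nonneg)
      (fun n => dist_wordMap_le hr hf ω n z' z)
      (by simpa using (tendsto_ratio hr hr1 ω).mul_const (dist z' z)))
  exact le_of_tendsto' (tendsto_const_nhds.dist hlim) fun n => hiter n ω

theorem dist_code_le (hr : ∀ i, 0 ≤ r i) (hr1 : ∀ i, r i < 1)
    (hf : ∀ i x y, dist (f i x) (f i y) ≤ r i * dist x y) {z : X} {D : ℝ}
    (hD : ∀ ω : ℕ → Fin m, dist z (code f ω) ≤ D) {ω η : ℕ → Fin m} {n : ℕ}
    (h : ∀ i < n, ω i = η i) :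
    dist (code f ω) (code f η) ≤ (∏ i ∈ range n, r (ω i)) * (2 * D) := by
  rw [code_eq_wordMap hr hr1 hf n ω, code_eq_wordMap hr hr1 hf n η, ← wordMap_congr f h]
  refine (dist_wordMap_le hr hf ω n _ _).trans
    (mul_le_mul_of_nonneg_left ?_ (prod_nonneg fun i _ => hr _))
  refine (dist_triangle_left _ _ z).trans ?_
  linarith [hD fun i => ω (i + n), hD fun i => η (i + n)]

theorem continuous_code (hr : ∀ i, 0 ≤ r i) (hr1 : ∀ i, r i < 1)
    (hf : ∀ i x y, dist (f i x) (f i y) ≤ r i * dist x y) : Continuous (code f) := by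
  refine continuous_iff_continuousAt.2 fun ω => Metric.tendsto_nhds.2 fun ε hε => ?_
  obtain ⟨D, -, hD⟩ := isBounded_range_code hr hr1 hf (Classical.arbitrary X)
  have hlim := (tendsto_ratio hr hr1 ω).mul_const (2 * D)
  rw [zero_mul] at hlim
  obtain ⟨n, hn⟩ := (hlim.eventually (eventually_lt_nhds hε)).exists
  have hev : ∀ i ∈ range n, ∀ᶠ η in 𝓝 ω, η i = ω i := fun i _ =>
    ((continuous_apply i).tendsto ω).eventually ((isOpen_discrete {ω i}).mem_nhds rfl)
  filter_upwards [(eventually_all_finset (range n)).2 hev] with η hη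
  rw [dist_comm]
  exact (dist_code_le hr hr1 hf hD fun i hi => (hη i (mem_range.2 hi)).symm).trans_lt hn

/-- **Hutchinson's theorem**: the attractor exists and is unique. -/
theorem existsUnique_attractor (hr : ∀ i, 0 ≤ r i) (hr1 : ∀ i, r i < 1)
    (hf : ∀ i x y, dist (f i x) (f i y) ≤ r i * dist x y) :
    ∃! K : Set X, K.Nonempty ∧ IsCompact K ∧ ⋃ i, f i '' K = K := by
  refine ⟨Set.range (code f), ⟨Set.range_nonempty _,
    isCompact_range (continuous_code hr hr1 hf), ?_⟩, ?_⟩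
  · refine Set.Subset.antisymm (Set.iUnion_subset fun i => ?_) ?_
    · rintro _ ⟨_, ⟨ω, rfl⟩, rfl⟩
      exact ⟨fun n => Nat.rec i (fun j _ => ω j) n, code_eq hr hr1 hf _⟩
    · rintro _ ⟨ω, rfl⟩
      exact Set.mem_iUnion.2 ⟨ω 0, _, ⟨_, rfl⟩, (code_eq hr hr1 hf ω).symm⟩
  · rintro A ⟨⟨a, ha⟩, hA, hfix⟩
    have hmap : ∀ i, f i '' A ⊆ A := fun i => by
      conv_rhs => rw [← hfix]
      exact Set.subset_iUnion (fun i => f i '' A) i
    set z' := Classical.arbitrary X
    have hlim : ∀ ω, ∀ b : ℕ → X, (∀ n, b n ∈ A) →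
        Tendsto (fun n => wordMap f ω n (b n)) atTop (𝓝 (code f ω)) := by
      intro ω b hb
      obtain ⟨C, hC⟩ := (Metric.isBounded_iff_subset_closedBall z').1 hA.isBounded
      refine (tendsto_code hr hr1 hf ω).congr_dist (squeeze_zero (fun _ => dist_nonneg)
        (fun n => (dist_wordMap_le hr hf ω n z' (b n)).trans (mul_le_mul_of_nonneg_left ?_
          (prod_nonneg fun i _ => hr _))) (by simpa using (tendsto_ratio hr hr1 ω).mul_const C))
      rw [dist_comm]
      exact Metric.mem_closedBall.1 (hC (hb n))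
    refine Set.Subset.antisymm (fun x hx => ?_) ?_
    · have hstep : ∀ y : A, ∃ p : Fin m × A, f p.1 p.2 = (y : X) := fun ⟨y, hy⟩ => by
        rw [← hfix] at hy
        obtain ⟨i, w, hw, e⟩ := Set.mem_iUnion.1 hy
        exact ⟨(i, ⟨w, hw⟩), e⟩
      choose g hg using hstep
      let b : ℕ → A := fun n => (fun y => (g y).2)^[n] ⟨x, hx⟩
      let ω : ℕ → Fin m := fun n => (g (b n)).1
      have hx' : ∀ n, wordMap f ω n (b n) = x := fun n => by
        induction n with
        | zero => rfl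
        | succ n ih =>
          rw [wordMap_succ', Function.comp_apply]
          have e : b (n + 1) = (g (b n)).2 := Function.iterate_succ_apply' _ _ _
          rw [e, hg, ih]
      refine ⟨ω, tendsto_nhds_unique (hlim ω (fun n => b n) fun n => (b n).2) ?_⟩
      simp only [hx']
      exact tendsto_const_nhds
    · rintro _ ⟨ω, rfl⟩
      exact hA.isClosed.mem_of_tendsto (hlim ω (fun _ => a) fun _ => ha)
        (Eventually.of_forall fun n => mapsTo_wordMap f hmap n ω a ha)

end FA.SelfSimilar
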