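import Mathlib.Analysis.Convex.StrictConvexBetween
import Mathlib.MeasureTheory.Measure.Lebesgue.EqHaar
import Fermat.Agent.DigitFrequency.Billingsley
import Fermat.Agent.SelfSimilar.Attractor

/-!
# Moran's theorem on the dimension of self-similar sets
-/

set_option autoImplicit false

noncomputable section

open Finset Filter Topology MeasureTheory Measure Metric
open scoped ENNReal NNReal

namespace FA.SelfSimilar

open FA.DigitFrequency

/-- The mass distribution principle in a metric space. -/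
theorem hausdorffMeasure_ne_zero_of_mass {X : Type*} [MetricSpace X] [MeasurableSpace X]
    [BorelSpace X] {α : Type*} {mα : MeasurableSpace α} (μ : Measure α) (g : α → X)
    {s C : ℝ} (hs : 0 < s) (hC : 0 < C) (hμ : μ Set.univ ≠ 0) {T : Set X} (hT : ∀ a, g a ∈ T)
    (h : ∀ t : Set X, ∀ δ, 0 < δ → δ < 1 → (∀ x ∈ t, ∀ y ∈ t, dist x y ≤ δ) →
      μ (g ⁻¹' t) ≤ ENNReal.ofReal (C * δ ^ s)) :
    μH[s] T ≠ 0 := by
  suffices hle : μ Set.univ / ENNReal.ofReal C ≤ μH[s] T by
    intro h0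
    rw [h0, nonpos_iff_eq_zero, ENNReal.div_eq_zero_iff] at hle
    exact hle.elim hμ ENNReal.ofReal_ne_top
  rw [hausdorffMeasure_apply]
  refine le_iSup₂_of_le (ENNReal.ofReal (1 / 2)) (ENNReal.ofReal_pos.2 (by norm_num))
    (le_iInf fun t => le_iInf fun hcov => le_iInf fun ht => ENNReal.div_le_of_le_mul' ?_)
  have hsub : Set.univ ⊆ ⋃ i, g ⁻¹' t i := fun a _ => by
    obtain ⟨i, hi⟩ := Set.mem_iUnion.1 (hcov (hT a))
    exact Set.mem_iUnion.2 ⟨i, hi⟩
  refine ((measure_mono hsub).trans (measure_iUnion_le _)).trans ?_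
  rw [← ENNReal.tsum_mul_left]
  refine ENNReal.tsum_le_tsum fun i => ?_
  rcases (t i).eq_empty_or_nonempty with h0 | hne
  · simp [h0]
  have htop : ediam (t i) ≠ ∞ := ne_top_of_le_ne_top ENNReal.ofReal_ne_top (ht i)
  set d : ℝ := (ediam (t i)).toReal with hd
  have hd0 : 0 ≤ d := ENNReal.toReal_nonneg
  have hdle : d ≤ 1 / 2 := ENNReal.toReal_le_of_le_ofReal (by norm_num) (ht i)
  have hlim : Tendsto (fun δ => ENNReal.ofReal (C * δ ^ s)) (𝓝[>] d)
      (𝓝 (ENNReal.ofReal (C * d ^ s))) :=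
    ENNReal.tendsto_ofReal (((Real.continuousAt_rpow_const d s
      (Or.inr hs.le)).tendsto.mono_left nhdsWithin_le_nhds).const_mul C)
  refine (ge_of_tendsto hlim (b := μ (g ⁻¹' t i)) ?_).trans ?_
  · filter_upwards [self_mem_nhdsWithin, mem_nhdsWithin_of_mem_nhds
      (eventually_lt_nhds (show d < 1 by linarith))] with δ hδ hδN
    refine h _ δ (hd0.trans_lt hδ) hδN fun x hx y hy => le_trans ?_ (le_of_lt hδ)
    rw [dist_edist]
    exact ENNReal.toReal_mono htop (edist_le_ediam_of_mem hx hy)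
  · rw [ENNReal.ofReal_mul hC.le, ← ENNReal.ofReal_rpow_of_nonneg hd0 hs.le, hd,
      ENNReal.ofReal_toReal htop]
    gcongr
    exact le_iSup_of_le hne le_rfl

/-- The equation `∑ r i ^ s = 1` has exactly one solution `s ≥ 0`. -/
theorem existsUnique_dimension {m : ℕ} [NeZero m] {r : Fin m → ℝ} (hr : ∀ i, 0 < r i)
    (hr1 : ∀ i, r i < 1) : ∃! s : ℝ, 0 ≤ s ∧ ∑ i, r i ^ s = 1 := by
  have hanti : StrictAnti fun s : ℝ => ∑ i, r i ^ s := fun a b hab =>
    sum_lt_sum_of_nonempty univ_nonempty fun i _ =>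
      Real.rpow_lt_rpow_of_exponent_gt (hr i) (hr1 i) hab
  have hcont : Continuous fun s : ℝ => ∑ i, r i ^ s :=
    continuous_finsetSum _ fun i _ => Real.continuous_const_rpow (hr i).ne'
  have h0 : (1 : ℝ) ≤ ∑ i, r i ^ (0 : ℝ) := by
    simp only [Real.rpow_zero, sum_const, card_univ, Fintype.card_fin, nsmul_eq_mul, mul_one]
    exact_mod_cast NeZero.one_le
  have hlim : Tendsto (fun s : ℝ => ∑ i, r i ^ s) atTop (𝓝 0) := by
    rw [show (0 : ℝ) = ∑ _i : Fin m, (0 : ℝ) by simp]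
    exact tendsto_finsetSum _ fun i _ =>
      tendsto_rpow_atTop_of_base_lt_one _ (by linarith [hr i]) (hr1 i)
  obtain ⟨T, hT, hT0⟩ := ((hlim.eventually (eventually_lt_nhds zero_lt_one)).and
    (eventually_ge_atTop 0)).exists
  obtain ⟨s, hs, hse⟩ := intermediate_value_Icc' hT0 hcont.continuousOn ⟨hT.le, h0⟩
  exact ⟨s, ⟨hs.1, hse⟩, fun u hu => hanti.injective (hu.2.trans hse.symm)⟩

variable {E : Type*} [NormedAddCommGroup E] [NormedSpace ℝ E] [StrictConvexSpace ℝ E]
  [FiniteDimensional ℝ E]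

/-- A similarity of a finite-dimensional space is surjective. -/
theorem surjective_of_similarity {r : ℝ} (hr : 0 < r) {g : E → E}
    (hg : ∀ x y, dist (g x) (g y) = r * dist x y) : Function.Surjective g := by
  have hi : Isometry fun x => r⁻¹ • g x := Isometry.of_dist_eq fun x y => by
    rw [dist_smul₀, hg, Real.norm_of_nonneg (inv_nonneg.2 hr.le), inv_mul_cancel_left₀ hr.ne']
  set A := hi.affineIsometryOfStrictConvexSpace
  intro y
  obtain ⟨v, hv⟩ := LinearMap.surjective_of_injective (f := A.linearIsometry.toLinearMap)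
    A.linearIsometry.injective (r⁻¹ • y - A 0)
  refine ⟨v, smul_right_injective E (inv_ne_zero hr.ne') ?_⟩
  have h := A.map_vadd 0 v
  simp only [vadd_eq_add, add_zero] at h
  rw [show A.linearIsometry v = r⁻¹ • y - A 0 from hv, sub_add_cancel] at h
  exact h

variable {m : ℕ} {f : Fin m → E → E} {r : Fin m → ℝ}

omit [NormedSpace ℝ E] [StrictConvexSpace ℝ E] [FiniteDimensional ℝ E] in
theorem dist_wordMap_eq (hf : ∀ i x y, dist (f i x) (f i y) = r i * dist x y) :
    ∀ (n : ℕ) (ω : ℕ → Fin m) (x y : E),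
      dist (wordMap f ω n x) (wordMap f ω n y) = wordWeight r ω n * dist x y
  | 0, _, _, _ => by simp [wordMap, wordWeight]
  | n + 1, ω, x, y => by
    rw [wordMap, Function.comp_apply, Function.comp_apply, hf,
      dist_wordMap_eq hf n (fun i => ω (i + 1)), wordWeight, wordWeight, prod_range_succ']
    ring

theorem surjective_wordMap (hr : ∀ i, 0 < r i)
    (hf : ∀ i x y, dist (f i x) (f i y) = r i * dist x y) :
    ∀ (n : ℕ) (ω : ℕ → Fin m), Function.Surjective (wordMap f ω n)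
  | 0, _ => Function.surjective_id
  | n + 1, ω => (surjective_of_similarity (hr (ω 0)) (hf (ω 0))).comp
      (surjective_wordMap hr hf n fun i => ω (i + 1))

theorem ball_subset_image_wordMap (hr : ∀ i, 0 < r i)
    (hf : ∀ i x y, dist (f i x) (f i y) = r i * dist x y) {U : Set E} {x₀ : E} {a : ℝ}
    (hball : ball x₀ a ⊆ U) (n : ℕ) (ω : ℕ → Fin m) :
    ball (wordMap f ω n x₀) (wordWeight r ω n * a) ⊆ wordMap f ω n '' U := by
  intro y hy
  obtain ⟨x, rfl⟩ := surjective_wordMap hr hf n ω y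
  refine ⟨x, hball ?_, rfl⟩
  rw [Metric.mem_ball, dist_wordMap_eq hf] at hy
  exact Metric.mem_ball.2 (lt_of_mul_lt_mul_left hy (prod_nonneg fun i _ => (hr _).le))

omit [NormedSpace ℝ E] [StrictConvexSpace ℝ E] [FiniteDimensional ℝ E] in
/-- The pieces of two addresses that differ are disjoint. -/
theorem disjoint_image_wordMap (hr : ∀ i, 0 < r i)
    (hf : ∀ i x y, dist (f i x) (f i y) = r i * dist x y) {U : Set E}
    (hU : ∀ i, f i '' U ⊆ U) (hdisj : Pairwise fun i j => Disjoint (f i '' U) (f j '' U))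
    {ω η : ℕ → Fin m} {k n n' : ℕ} (hk : k < n) (hk' : k < n') (heq : ∀ i < k, ω i = η i)
    (hne : ω k ≠ η k) : Disjoint (wordMap f ω n '' U) (wordMap f η n' '' U) := by
  have hsub : ∀ (ξ : ℕ → Fin m) (N : ℕ), k < N →
      wordMap f ξ N '' U ⊆ wordMap f ξ k '' (f (ξ k) '' U) := by
    rintro ξ N hN _ ⟨x, hx, rfl⟩
    obtain ⟨d, rfl⟩ := Nat.exists_eq_add_of_le (Nat.succ_le_of_lt hN)
    rw [wordMap_add f ξ d (k + 1), wordMap_succ', Set.image_image]
    exact ⟨_, mapsTo_wordMap f hU d _ x hx, rfl⟩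
  refine Disjoint.mono (hsub ω n hk) (hsub η n' hk') ?_
  rw [← wordMap_congr f heq]
  refine Set.disjoint_image_of_injective (fun x y hxy => ?_) (hdisj hne)
  have h := dist_wordMap_eq hf k ω x y
  rw [hxy, dist_self] at h
  have hpos : 0 < wordWeight r ω k := prod_pos fun i _ => hr _
  exact dist_eq_zero.1 ((mul_eq_zero.1 h.symm).resolve_left hpos.ne')

variable [MeasurableSpace E] [BorelSpace E]

omit [StrictConvexSpace ℝ E] in
/-- A bound for the number of disjoint balls of radius `ρ` inside one of radius `R`. -/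
theorem card_disjoint_balls_le {ι : Type*} (F : Finset ι) (c : ι → E) {y : E} {ρ R : ℝ}
    (hρ : 0 < ρ) (hR : 0 < R) (hsub : ∀ i ∈ F, ball (c i) ρ ⊆ ball y R)
    (hdisj : (F : Set ι).PairwiseDisjoint fun i => ball (c i) ρ) :
    (F.card : ℝ) ≤ (R / ρ) ^ Module.finrank ℝ E := by
  set ν : Measure E := Measure.addHaar
  have h : ∑ i ∈ F, ν (ball (c i) ρ) ≤ ν (ball y R) := by
    rw [← measure_biUnion_finset hdisj fun i _ => measurableSet_ball]
    exact measure_mono (Set.iUnion₂_subset hsub)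
  simp only [addHaar_ball_of_pos ν _ hρ, addHaar_ball_of_pos ν _ hR, sum_const, nsmul_eq_mul,
    ← mul_assoc] at h
  rw [ENNReal.mul_le_mul_iff_left (measure_ball_pos ν _ one_pos).ne' measure_ball_lt_top.ne,
    ← ENNReal.ofReal_natCast, ← ENNReal.ofReal_mul (Nat.cast_nonneg _),
    ENNReal.ofReal_le_ofReal_iff (pow_nonneg hR.le _)] at h
  rw [div_pow, le_div_iff₀ (pow_pos hρ _)]
  exact h

variable [NeZero m]

omit [StrictConvexSpace ℝ E] in
theorem hausdorffMeasure_attractor_ne_top (hr : ∀ i, 0 < r i) (hr1 : ∀ i, r i < 1)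
    (hf : ∀ i x y, dist (f i x) (f i y) ≤ r i * dist x y) {s : ℝ} (hs : 0 < s)
    (hsum : ∑ i, r i ^ s = 1) : μH[s] (Set.range (code f)) ≠ ∞ := by
  have hr0 : ∀ i, 0 ≤ r i := fun i => (hr i).le
  obtain ⟨D, hD0, hD⟩ := isBounded_range_code hr0 hr1 hf (0 : E)
  obtain ⟨R, hR0, hR1, -, hR⟩ := exists_ratio_bound hr0 hr1
  set t : (n : ℕ) → (Fin n → Fin m) → Set E := fun n w =>
    code f '' {ω | ∀ i : Fin n, ω i = w i}
  have hdiam : ∀ n w, ediam (t n w) ≤ ENNReal.ofReal ((∏ i : Fin n, r (w i)) * (2 * D)) := by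
    intro n w
    refine Metric.ediam_le ?_
    rintro _ ⟨ω, hω, rfl⟩ _ ⟨η, hη, rfl⟩
    rw [edist_dist]
    refine ENNReal.ofReal_le_ofReal ((dist_code_le hr0 hr1 hf hD fun i hi =>
      (hω ⟨i, hi⟩).trans (hη ⟨i, hi⟩).symm).trans_eq ?_)
    rw [← Fin.prod_univ_eq_prod_range (fun i => r (ω i)) n,
      prod_congr rfl fun (i : Fin n) _ => congrArg r (hω i)]
  have hsmall : ∀ n w, ediam (t n w) ≤ ENNReal.ofReal (R ^ n * (2 * D)) := by
    intro n w
    rcases (t n w).eq_empty_or_nonempty with h | ⟨_, ω, hω, -⟩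
    · simp [h]
    refine (hdiam n w).trans (ENNReal.ofReal_le_ofReal
      (mul_le_mul_of_nonneg_right ?_ (by linarith)))
    rw [prod_congr rfl fun (i : Fin n) _ => (congrArg r (hω i)).symm,
      Fin.prod_univ_eq_prod_range (fun i => r (ω i)) n]
    exact hR ω n
  have hlim : Tendsto (fun n : ℕ => ENNReal.ofReal (R ^ n * (2 * D))) atTop (𝓝 0) := by
    simpa using ENNReal.tendsto_ofReal
      ((tendsto_pow_atTop_nhds_zero_of_lt_one hR0 hR1).mul_const (2 * D))
  refine ne_top_of_le_ne_top (ENNReal.ofReal_ne_top (r := (2 * D) ^ s))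
    ((hausdorffMeasure_le_liminf_sum s _ _ hlim t (Eventually.of_forall hsmall)
      (Eventually.of_forall fun n x hx => ?_)).trans
      (liminf_le_of_frequently_le' (Frequently.of_forall fun n => ?_)))
  · obtain ⟨ω, rfl⟩ := hx
    exact Set.mem_iUnion.2 ⟨fun i => ω i, ω, fun i => rfl, rfl⟩
  refine (sum_le_sum fun w _ => (?_ : ediam (t n w) ^ s ≤
    ENNReal.ofReal ((∏ i : Fin n, r (w i) ^ s) * (2 * D) ^ s))).trans ?_
  · refine (ENNReal.rpow_le_rpow (hdiam n w) hs.le).trans_eq ?_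
    rw [ENNReal.ofReal_rpow_of_nonneg
      (mul_nonneg (prod_nonneg fun i _ => hr0 _) (by linarith)) hs.le,
      Real.mul_rpow (prod_nonneg fun i _ => hr0 _) (by linarith),
      Real.finsetProd_rpow _ _ fun i _ => hr0 _]
  · rw [← ENNReal.ofReal_sum_of_nonneg fun w _ => mul_nonneg
      (prod_nonneg fun i _ => Real.rpow_nonneg (hr0 _) s) (Real.rpow_nonneg (by linarith) s),
      ← sum_mul, ← Fintype.prod_sum fun (_ : Fin n) j => r j ^ s, prod_congr rfl fun _ _ => hsum,
      prod_const_one, one_mul]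

theorem hausdorffMeasure_attractor_ne_zero (hr : ∀ i, 0 < r i) (hr1 : ∀ i, r i < 1)
    (hf : ∀ i x y, dist (f i x) (f i y) = r i * dist x y) {U : Set E} (hUo : IsOpen U)
    (hne : U.Nonempty) (hU : ∀ i, f i '' U ⊆ U)
    (hdisj : Pairwise fun i j => Disjoint (f i '' U) (f j '' U)) {s : ℝ} (hs : 0 < s)
    (hsum : ∑ i, r i ^ s = 1) : μH[s] (Set.range (code f)) ≠ 0 := by
  have hr0 : ∀ i, 0 ≤ r i := fun i => (hr i).le
  have hf' : ∀ i x y, dist (f i x) (f i y) ≤ r i * dist x y := fun i x y => (hf i x y).le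
  obtain ⟨x₀, hx₀⟩ := hne
  obtain ⟨a, ha, hball⟩ := Metric.isOpen_iff.1 hUo x₀ hx₀
  obtain ⟨D, hD0, hD⟩ := isBounded_range_code hr0 hr1 hf' x₀
  obtain ⟨l, -, hl⟩ := exists_min_image (univ : Finset (Fin m)) r univ_nonempty
  set p : Fin m → ℝ := fun i => r i ^ s
  have hp0 : ∀ i, 0 ≤ p i := fun i => Real.rpow_nonneg (hr0 i) s
  have hμ : sequenceLaw p Set.univ ≠ 0 := by
    have := isProbabilityMeasure_digitLaw hp0 hsum
    have : IsProbabilityMeasure (sequenceLaw p) := by unfold sequenceLaw; infer_instance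
    rw [measure_univ]
    exact one_ne_zero
  set M : ℝ := ((1 + D + a) / (a * r l)) ^ Module.finrank ℝ E
  have hM : 0 < M := pow_pos (div_pos (by linarith) (mul_pos ha (hr l))) _
  refine hausdorffMeasure_ne_zero_of_mass (sequenceLaw p) (code f) hs hM hμ
    (fun ω => Set.mem_range_self ω) fun t δ hδ hδ1 ht => ?_
  have hex : ∀ ω : ℕ → Fin m, ∃ n, wordWeight r ω n ≤ δ := fun ω =>
    ((tendsto_ratio hr0 hr1 ω).eventually (eventually_le_nhds hδ)).exists
  set stop : (ℕ → Fin m) → ℕ := fun ω => Nat.find (hex ω) with hstop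
  have hstop1 : ∀ ω, wordWeight r ω (stop ω) ≤ δ := fun ω => Nat.find_spec (hex ω)
  have hlow : ∀ ω, δ * r l ≤ wordWeight r ω (stop ω) := by
    intro ω
    obtain ⟨k, hk⟩ : ∃ k, stop ω = k + 1 := Nat.exists_eq_succ_of_ne_zero fun h0 => by
      have := hstop1 ω
      rw [h0, wordWeight, range_zero, prod_empty] at this
      linarith
    have h : δ < wordWeight r ω k :=
      not_le.1 (Nat.find_min (hex ω) (show k < stop ω by omega))
    rw [hk, wordWeight, prod_range_succ]
    exact mul_le_mul h.le (hl _ (mem_univ _)) (hr0 l) (prod_nonneg fun i _ => hr0 _)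
  set cyl : (ℕ → Fin m) → Set (ℕ → Fin m) := fun ω => {η | ∀ i < stop ω, η i = ω i} with hcyl
  set A := code f ⁻¹' t
  have hdiff : ∀ ω η, cyl ω ≠ cyl η →
      ∃ k, k < stop ω ∧ k < stop η ∧ (∀ i < k, ω i = η i) ∧ ω k ≠ η k := by
    intro ω η hne'
    by_contra! hcon
    have hagree : ∀ i, i < stop ω → i < stop η → ω i = η i := by
      intro i
      induction i using Nat.strong_induction_on with
      | _ i ih =>
        exact fun hi hi' => hcon i hi hi' fun j hj => ih j hj (hj.trans hi) (hj.trans hi')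
    have key : ∀ ω η : ℕ → Fin m, stop ω ≤ stop η → (∀ i < stop ω, ω i = η i) →
        cyl ω = cyl η := by
      intro ω η hle h
      have e : wordWeight r η (stop ω) = wordWeight r ω (stop ω) :=
        prod_congr rfl fun i hi => by rw [h i (mem_range.1 hi)]
      have hst : stop η = stop ω :=
        le_antisymm (Nat.find_min' (hex η) (e.le.trans (hstop1 ω))) hle
      ext ξ
      simp only [hcyl, Set.mem_ofPred_eq, hst]
      exact forall₂_congr fun i hi => by rw [h i hi]
    rcases le_total (stop ω) (stop η) with hle | hle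
    · exact hne' (key ω η hle fun i hi => hagree i hi (hi.trans_le hle))
    · exact hne' (key η ω hle fun i hi => (hagree i (hi.trans_le hle) hi).symm).symm
  have hcount : ∀ F : Finset (ℕ → Fin m), (∀ ω ∈ F, ω ∈ A) →
      (∀ ω ∈ F, ∀ η ∈ F, cyl ω = cyl η → ω = η) → (F.card : ℝ) ≤ M := by
    intro F hFA hinj
    rcases F.eq_empty_or_nonempty with he | ⟨ω₀, hω₀⟩
    · simp [he, hM.le]
    refine (card_disjoint_balls_le F (fun ω => wordMap f ω (stop ω) x₀)
      (y := code f ω₀) (ρ := a * r l * δ) (R := (1 + D + a) * δ)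
      (mul_pos (mul_pos ha (hr l)) hδ) (mul_pos (by linarith) hδ) (fun ω hω z hz => ?_)
      fun ω hω η hη hne' => ?_).trans_eq ?_
    · rw [Metric.mem_ball] at hz ⊢
      have h1 : dist (wordMap f ω (stop ω) x₀) (code f ω) ≤ δ * D := by
        rw [code_eq_wordMap hr0 hr1 hf' (stop ω) ω, dist_wordMap_eq hf]
        exact mul_le_mul (hstop1 ω) (hD _) dist_nonneg hδ.le
      have h2 := ht _ (hFA ω hω) _ (hFA ω₀ hω₀)
      have h3 := dist_triangle4 z (wordMap f ω (stop ω) x₀) (code f ω) (code f ω₀)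
      have h4 : a * r l * δ ≤ a * δ :=
        mul_le_mul_of_nonneg_right (mul_le_of_le_one_right ha.le (hr1 l).le) hδ.le
      linarith
    · obtain ⟨k, hk, hk', heq, hkne⟩ := hdiff ω η fun e => hne' (hinj ω hω η hη e)
      have hs' : ∀ ξ : ℕ → Fin m, ball (wordMap f ξ (stop ξ) x₀) (a * r l * δ) ⊆
          wordMap f ξ (stop ξ) '' U := fun ξ =>
        (ball_subset_ball (by linarith [mul_le_mul_of_nonneg_left (hlow ξ) ha.le])).trans
          (ball_subset_image_wordMap hr hf hball _ ξ)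
      exact (disjoint_image_wordMap hr hf hU hdisj hk hk' heq hkne).mono (hs' ω) (hs' η)
    · rw [mul_div_mul_right _ _ hδ.ne']
  have hfin : (cyl '' A).Finite := by
    by_contra hinf
    obtain ⟨G, hG, hGcard⟩ := Set.Infinite.exists_subset_card_eq hinf (⌊M⌋₊ + 1)
    choose g hgA hg using fun C (hC : C ∈ G) => hG hC
    classical
    have hc := hcount (G.attach.image fun C => g C.1 C.2)
      (fun ω hω => by
        obtain ⟨C, -, rfl⟩ := mem_image.1 hω
        exact hgA _ _)
      fun ω hω η hη e => by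
        obtain ⟨C, -, rfl⟩ := mem_image.1 hω
        obtain ⟨C', -, rfl⟩ := mem_image.1 hη
        rw [hg, hg] at e
        rw [Subtype.ext e]
    rw [card_image_of_injective _ fun C C' e => Subtype.ext (by rw [← hg C.1 C.2, e, hg]),
      card_attach, hGcard] at hc
    push_cast at hc
    linarith [Nat.lt_floor_add_one M]
  have hcard : (hfin.toFinset.card : ℝ) ≤ M := by
    classical
    choose g hgA hg using fun C (hC : C ∈ hfin.toFinset) => hfin.mem_toFinset.1 hC
    have hc := hcount (hfin.toFinset.attach.image fun C => g C.1 C.2)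
      (fun ω hω => by
        obtain ⟨C, -, rfl⟩ := mem_image.1 hω
        exact hgA _ _)
      fun ω hω η hη e => by
        obtain ⟨C, -, rfl⟩ := mem_image.1 hω
        obtain ⟨C', -, rfl⟩ := mem_image.1 hη
        rw [hg, hg] at e
        rw [Subtype.ext e]
    rwa [card_image_of_injective _ fun C C' e => Subtype.ext (by rw [← hg C.1 C.2, e, hg]),
      card_attach] at hc
  have hcov : A ⊆ ⋃ C ∈ hfin.toFinset, C := fun ω hω =>
    Set.mem_iUnion₂.2 ⟨cyl ω, hfin.mem_toFinset.2 ⟨ω, hω, rfl⟩, fun i _ => rfl⟩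
  refine ((measure_mono hcov).trans (measure_biUnion_finset_le _ _)).trans ?_
  refine (sum_le_card_nsmul _ _ (ENNReal.ofReal (δ ^ s)) fun C hC => ?_).trans ?_
  · obtain ⟨ω, -, rfl⟩ := hfin.mem_toFinset.1 hC
    refine (sequenceLaw_cylinder hp0 hsum ω (stop ω)).trans_le (ENNReal.ofReal_le_ofReal ?_)
    rw [wordWeight, Real.finsetProd_rpow _ _ fun i _ => hr0 _]
    exact Real.rpow_le_rpow (prod_nonneg fun i _ => hr0 _) (hstop1 ω) hs.le
  · rw [nsmul_eq_mul, ← ENNReal.ofReal_natCast, ← ENNReal.ofReal_mul (Nat.cast_nonneg _)]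
    exact ENNReal.ofReal_le_ofReal (mul_le_mul_of_nonneg_right hcard (Real.rpow_nonneg hδ.le s))

/-- **Moran's theorem**: under the open set condition the attractor has positive finite measure
in the dimension `s` with `∑ r i ^ s = 1`. -/
theorem moran (hr : ∀ i, 0 < r i) (hr1 : ∀ i, r i < 1)
    (hf : ∀ i x y, dist (f i x) (f i y) = r i * dist x y) {U : Set E} (hUo : IsOpen U)
    (hne : U.Nonempty) (hU : ∀ i, f i '' U ⊆ U)
    (hdisj : Pairwise fun i j => Disjoint (f i '' U) (f j '' U)) {K : Set E} (hK : IsCompact K)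
    (hKne : K.Nonempty) (hfix : ⋃ i, f i '' K = K) {s : ℝ} (hs : 0 ≤ s)
    (hsum : ∑ i, r i ^ s = 1) :
    dimH K = ENNReal.ofReal s ∧ μH[s] K ≠ 0 ∧ μH[s] K ≠ ∞ := by
  have hr0 : ∀ i, 0 ≤ r i := fun i => (hr i).le
  have hf' : ∀ i x y, dist (f i x) (f i y) ≤ r i * dist x y := fun i x y => (hf i x y).le
  have hrange : K = Set.range (code f) := by
    obtain ⟨K₀, -, huniq⟩ := existsUnique_attractor hr0 hr1 hf'
    have hc : Continuous (code f) := continuous_code hr0 hr1 hf'
    refine (huniq K ⟨hKne, hK, hfix⟩).trans (huniq _ ⟨Set.range_nonempty _,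
      isCompact_range hc, Set.Subset.antisymm (Set.iUnion_subset fun i => ?_) ?_⟩).symm
    · rintro _ ⟨_, ⟨ω, rfl⟩, rfl⟩
      exact ⟨fun n => Nat.rec i (fun j _ => ω j) n, code_eq hr0 hr1 hf' _⟩
    · rintro _ ⟨ω, rfl⟩
      exact Set.mem_iUnion.2 ⟨ω 0, _, ⟨_, rfl⟩, (code_eq hr0 hr1 hf' ω).symm⟩
  rcases hs.eq_or_lt with rfl | hs'
  · have hm : m = 1 := by
      simp only [Real.rpow_zero, sum_const, card_univ, Fintype.card_fin, nsmul_eq_mul,
        mul_one] at hsum
      exact_mod_cast hsum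
    subst hm
    have hsing : K = {code f fun _ => 0} := by
      rw [hrange]
      ext x
      simp only [Set.mem_range, Set.mem_singleton_iff]
      exact ⟨fun ⟨ω, h⟩ => h ▸ congrArg _ (funext fun i => Subsingleton.elim _ _),
        fun h => ⟨_, h.symm⟩⟩
    rw [hsing, dimH_singleton, hausdorffMeasure_zero_singleton, ENNReal.ofReal_zero]
    exact ⟨rfl, one_ne_zero, ENNReal.one_ne_top⟩
  have h1 := hausdorffMeasure_attractor_ne_zero hr hr1 hf hUo hne hU hdisj hs' hsum
  have h2 := hausdorffMeasure_attractor_ne_top hr hr1 hf' hs' hsum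
  rw [← hrange] at h1 h2
  refine ⟨?_, h1, h2⟩
  rw [dimH_of_hausdorffMeasure_ne_zero_ne_top (d := s.toNNReal)
    (by rwa [Real.coe_toNNReal s hs]) (by rwa [Real.coe_toNNReal s hs])]
  rfl

end FA.SelfSimilar
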